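-- Wiring for statement S45 (level lowering of the Frey representation down to level two).
-- The single theorem `Fermat.Agent.S45Core.exists_level_two_of` derives the conclusion of S45
-- from hypotheses shaped exactly like the frozen statements S06, S05, S43 and S44
-- (passed as explicit arguments, so this file depends on none of them), plus the solved S08.
import Fermat.Statements.S45
import Fermat.Prelude.Def_FreyPackage_IsConductorLevel
import Fermat.Agent.S08

set_option autoImplicit false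
open WeierstrassCurve WeierstrassCurve.Affine WeierstrassCurve.Affine.Point
open CuspForm ModularFormClass UpperHalfPlane
open FreyPackage

namespace Fermat.Agent.S45Core

/-- A positive squarefree natural number without odd prime factors is `1` or `2`. -/
theorem eq_one_or_two_of_squarefree {N : ℕ} (hsq : Squarefree N)
    (hodd : ∀ q : ℕ, q.Prime → q ∣ N → q = 2) : N = 1 ∨ N = 2 := by
  by_cases h1 : N = 1
  · exact Or.inl h1
  right
  obtain ⟨q, hq, hqN⟩ := Nat.exists_prime_and_dvd h1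
  have hq2 : q = 2 := hodd q hq hqN
  subst hq2
  obtain ⟨k, rfl⟩ := hqN
  by_cases hk : k = 1
  · subst hk; rfl
  exfalso
  obtain ⟨r, hr, hrk⟩ := Nat.exists_prime_and_dvd hk
  have hr2 : r = 2 := hodd r hr (hrk.mul_left 2)
  subst hr2
  obtain ⟨m, rfl⟩ := hrk
  have h4 : 2 * 2 ∣ 2 * (2 * m) := ⟨m, by ring⟩
  have := hsq 2 h4
  simp at this

/-- The descent: starting from any conductor level at which the Frey representation is modular,
one reaches a level dividing `2`. The hypotheses `h43` and `h44` are shaped exactly like the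
frozen statements S43 and S44 (for this one package), `h05` like S05. -/
theorem exists_level_dvd_two (P : FreyPackage)
    (h05 : ∀ {q : ℕ}, q.Prime → q ≠ 2 → q ≠ P.p → P.GaloisRepUnramifiedAt q)
    (h43 : ∀ {N q : ℕ}, P.IsConductorLevel N → q.Prime → q ≠ 2 → q ≠ P.p → q ∣ N →
      P.ModularRepOfLevel N → P.GaloisRepUnramifiedAt q →
      ∃ M : ℕ, M ∣ N ∧ ¬ q ∣ M ∧ P.ModularRepOfLevel M)
    (h44 : ∀ {N : ℕ}, P.IsConductorLevel N → P.p ∣ N → P.ModularRepOfLevel N →
      ∃ M : ℕ, M ∣ N ∧ ¬ P.p ∣ M ∧ P.ModularRepOfLevel M) :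
    ∀ N : ℕ, P.IsConductorLevel N → P.ModularRepOfLevel N →
      ∃ M : ℕ, (M = 1 ∨ M = 2) ∧ P.ModularRepOfLevel M := by
  intro N
  induction N using Nat.strong_induction_on with
  | _ N ih =>
    intro hcond hmod
    by_cases hodd : ∀ q : ℕ, q.Prime → q ∣ N → q = 2
    · exact ⟨N, eq_one_or_two_of_squarefree hcond.squarefree hodd, hmod⟩
    · push Not at hodd
      obtain ⟨q, hq, hqN, hq2⟩ := hodd
      have key : ∃ M : ℕ, M ∣ N ∧ ¬ q ∣ M ∧ P.ModularRepOfLevel M := by
        by_cases hqp : q = P.p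
        · subst hqp
          exact h44 hcond hqN hmod
        · exact h43 hcond hq hq2 hqp hqN hmod (h05 hq hq2 hqp)
      obtain ⟨M, hMN, hqM, hmodM⟩ := key
      have hMpos : 0 < M := Nat.pos_of_dvd_of_pos hMN hcond.pos
      have hMne : M ≠ N := fun h => hqM (h ▸ hqN)
      have hMlt : M < N := lt_of_le_of_ne (Nat.le_of_dvd hcond.pos hMN) hMne
      exact ih M hMlt (hcond.of_dvd hMN hMpos) hmodM

/-- The conclusion of S45 from hypotheses shaped like the frozen statements S06, S05, S43, S44. -/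
theorem exists_level_two_of (P : FreyPackage)
    (h06 : ∃ N : ℕ, P.IsConductorLevel N ∧ P.ModularRepOfLevel N)
    (h05 : ∀ {q : ℕ}, q.Prime → q ≠ 2 → q ≠ P.p → P.GaloisRepUnramifiedAt q)
    (h43 : ∀ {N q : ℕ}, P.IsConductorLevel N → q.Prime → q ≠ 2 → q ≠ P.p → q ∣ N →
      P.ModularRepOfLevel N → P.GaloisRepUnramifiedAt q →
      ∃ M : ℕ, M ∣ N ∧ ¬ q ∣ M ∧ P.ModularRepOfLevel M)
    (h44 : ∀ {N : ℕ}, P.IsConductorLevel N → P.p ∣ N → P.ModularRepOfLevel N →
      ∃ M : ℕ, M ∣ N ∧ ¬ P.p ∣ M ∧ P.ModularRepOfLevel M) :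
    ∃ f : CuspForm (CongruenceSubgroup.Gamma0 2) 2, f ≠ 0 := by
  obtain ⟨N, hcond, hmod⟩ := h06
  obtain ⟨M, hM, hmodM⟩ := exists_level_dvd_two P h05 h43 h44 N hcond hmod
  rcases hM with rfl | rfl
  · obtain ⟨f, -, -, hf, -⟩ := hmodM
    exact absurd (Fermat.Agent.S08.result f) hf.ne_zero
  · obtain ⟨f, -, -, hf, -⟩ := hmodM
    exact ⟨f, hf.ne_zero⟩

end Fermat.Agent.S45Core
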